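import Fermat.Agent.S19.A.Defs

/-!
# S19 / A3 (closure) : pull back of a `FlatOrder` along an injective equivariant homomorphism
(TASK S19/A3-Inj; Mathlib + `Defs` only)
-/

set_option autoImplicit false

namespace Fermat.Agent.S19.A

variable {ℓ : ℕ} {G : Type} [AddCommGroup G] {act : GQ → G → G} {H : Subalgebra (Zl ℓ) (G → Qb)}

/-- `H' := H.map (pull j)`, `pull j : (G → Qb) →ₐ[Zl ℓ] (P → Qb)`, `f ↦ f ∘ j`
(`AlgHom.pi fun x => Pi.evalAlgHom _ _ (j x)` or `Pi.... compRight`).  `equiv`, `sep`, `comul` are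
immediate; `fg` : `Submodule.FG.map` (`Subalgebra.map_toSubmodule`). -/
theorem FlatOrder.of_injective (h : FlatOrder ℓ act H) {P : Type} [AddCommGroup P]
    {actP : GQ → P → P} (j : P →+ G) (hj : Function.Injective j)
    (hequiv : ∀ σ x, j (actP σ x) = act σ (j x)) :
    ∃ H' : Subalgebra (Zl ℓ) (P → Qb), FlatOrder ℓ actP H' := by
  let pl : (G → Qb) →ₐ[Zl ℓ] (P → Qb) :=
    AlgHom.pi fun x => Pi.evalAlgHom (Zl ℓ) (fun _ : G => Qb) (j x)
  have hpl : ∀ (f : G → Qb) (x : P), pl f x = f (j x) := fun _ _ => rfl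
  refine ⟨H.map pl, ?_, ?_, ?_, ?_⟩
  · rintro _ ⟨f, hf, rfl⟩ σ x
    show f (j (actP σ x)) = σ (f (j x))
    rw [hequiv]
    exact h.equiv f hf σ (j x)
  · rw [Subalgebra.map_toSubmodule]
    exact h.fg.map _
  · intro x y hxy
    obtain ⟨f, hf, hne⟩ := h.sep (j x) (j y) (fun e => hxy (hj e))
    exact ⟨pl f, ⟨f, hf, rfl⟩, hne⟩
  · rintro _ ⟨f, hf, rfl⟩
    obtain ⟨ι, hι, a, b, ha, hb, hab⟩ := h.comul f hf
    refine ⟨ι, hι, fun i => pl (a i), fun i => pl (b i), fun i => ⟨a i, ha i, rfl⟩,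
      fun i => ⟨b i, hb i, rfl⟩, fun x y => ?_⟩
    show f (j (x + y)) = ∑ i, a i (j x) * b i (j y)
    rw [map_add]
    exact hab (j x) (j y)

end Fermat.Agent.S19.A
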