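import Fermat.Agent.S19.A.Defs

/-!
# S19 / A3 (closure) : a `FlatOrder` forces `G` finite and `act` a smooth Galois action
(TASK S19/A3-Basic; Mathlib + `Defs` only)
-/

set_option autoImplicit false

namespace Fermat.Agent.S19.A

variable {ℓ : ℕ} {G : Type} [AddCommGroup G] {act : GQ → G → G} {H : Subalgebra (Zl ℓ) (G → Qb)}

/-- finitely many elements of `H` (module generators) which already separate the points. Each is
integral over `ℤ_(ℓ)` (`IsIntegral.of_mem_of_fg H h.fg`). If `g i x = g i y` for all generators then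
`f x = f y` for all `f ∈ H` (`Submodule.span_induction`), hence `x = y` by `h.sep`. -/
theorem FlatOrder.exists_gens (h : FlatOrder ℓ act H) :
    ∃ (n : ℕ) (g : Fin n → G → Qb), (∀ i, g i ∈ H) ∧ (∀ i, IsIntegral (Zl ℓ) (g i)) ∧
      ∀ x y, (∀ i, g i x = g i y) → x = y := by
  classical
  obtain ⟨n, g, hg⟩ := Submodule.fg_iff_exists_fin_generating_family.1 h.fg
  have hmem : ∀ i, g i ∈ H := by
    intro i
    have : g i ∈ Submodule.span (Zl ℓ) (Set.range g) := Submodule.subset_span ⟨i, rfl⟩
    rw [hg] at this
    exact this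
  refine ⟨n, g, hmem, fun i => IsIntegral.of_mem_of_fg H h.fg _ (hmem i), ?_⟩
  intro x y hxy
  by_contra hne
  obtain ⟨f, hf, hfne⟩ := h.sep x y hne
  apply hfne
  have hf' : f ∈ Submodule.span (Zl ℓ) (Set.range g) := by rw [hg]; exact hf
  clear hf hfne
  induction hf' using Submodule.span_induction with
  | mem f hf => obtain ⟨i, rfl⟩ := hf; exact hxy i
  | zero => rfl
  | add f g _ _ hf hg => simp only [Pi.add_apply, hf, hg]
  | smul a f _ hf => simp only [Pi.smul_apply, hf]

/-- `x ↦ (g i x)_i` is injective with values in the finite set `∏ i, roots (P i)`, where `P i` is a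
monic polynomial killing `g i` (apply `Pi.evalAlgHom _ _ x` to the integrality relation). -/
theorem FlatOrder.finite (h : FlatOrder ℓ act H) : Finite G := by
  classical
  obtain ⟨n, g, _, hint, hsep⟩ := h.exists_gens
  choose P hPm hP using hint
  have hroot : ∀ i x, g i x ∈ ((P i).map (algebraMap (Zl ℓ) Qb)).roots.toFinset := by
    intro i x
    rw [Multiset.mem_toFinset, Polynomial.mem_roots ((hPm i).map _).ne_zero,
      Polynomial.IsRoot.def, Polynomial.eval_map]
    have := congrArg (Pi.evalAlgHom (Zl ℓ) (fun _ : G => Qb) x) (hP i)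
    rw [← Polynomial.aeval_def, ← Polynomial.aeval_algHom_apply] at this
    simpa [Polynomial.aeval_def] using this
  let F : G → (∀ i : Fin n, ((P i).map (algebraMap (Zl ℓ) Qb)).roots.toFinset) :=
    fun x i => ⟨g i x, hroot i x⟩
  apply Finite.of_injective F
  intro x y hxy
  apply hsep
  intro i
  exact congrArg Subtype.val (congrFun hxy i)

/-- all four fields are tested on `f ∈ H` (`h.sep`, contrapositive):
`f (act 1 x) = f x`; `f (act (σ τ) x) = σ (τ (f x)) = f (act σ (act τ x))`;
`f (act σ (x + y)) = σ (∑ a i x * b i y) = ∑ a i (act σ x) * b i (act σ y) = f (act σ x + act σ y)`;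
smooth: `L = IntermediateField.adjoin ℚ (Set.range fun i => g i x)` (`g` from `exists_gens`), finite
dimensional because the `g i x` are algebraic (`IntermediateField.finiteDimensional_adjoin`), and
`σ ∈ L.fixingSubgroup` gives `g i (act σ x) = σ (g i x) = g i x`. -/
theorem FlatOrder.isGalAction (h : FlatOrder ℓ act H) : IsGalAction act := by
  classical
  have key : ∀ x y : G, (∀ f ∈ H, f x = f y) → x = y := by
    intro x y hxy
    by_contra hne
    obtain ⟨f, hf, hfne⟩ := h.sep x y hne
    exact hfne (hxy f hf)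
  refine ⟨fun x => key _ _ fun f hf => ?_, fun σ τ x => key _ _ fun f hf => ?_,
    fun σ x y => key _ _ fun f hf => ?_, fun x => ?_⟩
  · rw [h.equiv f hf]; rfl
  · rw [h.equiv f hf, h.equiv f hf, h.equiv f hf]; rfl
  · obtain ⟨ι, _, a, b, ha, hb, hab⟩ := h.comul f hf
    rw [h.equiv f hf, hab, hab, map_sum]
    refine Finset.sum_congr rfl fun i _ => ?_
    rw [map_mul, h.equiv _ (ha i), h.equiv _ (hb i)]
  · obtain ⟨n, g, hg, hint, hsep⟩ := h.exists_gens
    refine ⟨IntermediateField.adjoin ℚ (Set.range fun i => g i x), ?_, ?_⟩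
    · apply IntermediateField.finiteDimensional_adjoin
      intro y _
      exact ((AlgebraicClosure.isAlgebraic ℚ).isAlgebraic y).isIntegral
    · intro σ hσ
      apply hsep
      intro i
      rw [h.equiv _ (hg i)]
      have := (IntermediateField.mem_fixingSubgroup_iff _ _).1 hσ (g i x)
        (IntermediateField.subset_adjoin _ _ ⟨i, rfl⟩)
      exact this

end Fermat.Agent.S19.A
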