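import Fermat.Agent.S19.A.Closure.Adjoin
import Fermat.Agent.S19.A.Closure.Basic

/-!
# S19 / A3 (closure) : finite powers of a `FlatOrder`
(TASK S19/A3-Pi; uses `comulClosed_adjoin`, `FlatOrder.exists_gens` as black boxes)
-/

set_option autoImplicit false

namespace Fermat.Agent.S19.A

variable {ℓ : ℕ} {G : Type} [AddCommGroup G] {act : GQ → G → G} {H : Subalgebra (Zl ℓ) (G → Qb)}

/-- `f ↦ f ∘ eval_j`. -/
noncomputable def pullEval (ℓ : ℕ) (G J : Type) (j : J) : (G → Qb) →ₐ[Zl ℓ] ((J → G) → Qb) where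
  toFun f := fun z => f (z j)
  map_one' := rfl
  map_mul' _ _ := rfl
  map_zero' := rfl
  map_add' _ _ := rfl
  commutes' _ := rfl

/-- `H' := Algebra.adjoin (Zl ℓ) S`, `S = {fun z => f (z j) | f ∈ H, j : J}`.
* `equiv` : `Algebra.adjoin_induction` (σ is a ring hom fixing `ℤ_(ℓ) ⊂ ℚ`: `σ.commutes`).
* `fg` : let `g_1 .. g_n` be MODULE generators of `H` (`h.fg`); then
  `H' = Algebra.adjoin (Zl ℓ) S₀`, `S₀ = {fun z => g i (z j)}` finite (each `fun z => f (z j)` is a
  `ℤ_(ℓ)`-linear combination of elements of `S₀`), the elements of `S₀` are integral (image of the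
  integral element `g i` under the algebra hom `f ↦ fun z => f (z j)`), so `fg_adjoin_of_finite`.
* `sep` : `z ≠ z'` gives `j` with `z j ≠ z' j`, then `h.sep`.
* `comul` : `comulClosed_adjoin`, with `a i ∘ eval j`, `b i ∘ eval j`. -/
theorem FlatOrder.pi (h : FlatOrder ℓ act H) (J : Type) [Finite J] :
    ∃ H' : Subalgebra (Zl ℓ) ((J → G) → Qb),
      FlatOrder ℓ (fun σ (z : J → G) j => act σ (z j)) H' := by
  classical
  let S : Set ((J → G) → Qb) := {F | ∃ f ∈ H, ∃ j : J, F = pullEval ℓ G J j f}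
  have hSmem : ∀ f ∈ H, ∀ j : J, pullEval ℓ G J j f ∈ Algebra.adjoin (Zl ℓ) S :=
    fun f hf j => Algebra.subset_adjoin ⟨f, hf, j, rfl⟩
  refine ⟨Algebra.adjoin (Zl ℓ) S, ?_, ?_, ?_, ?_⟩
  · -- equiv
    intro F hF σ z
    induction hF using Algebra.adjoin_induction with
    | mem F hF =>
      obtain ⟨f, hf, j, rfl⟩ := hF
      exact h.equiv f hf σ (z j)
    | algebraMap r =>
      show algebraMap ℚ Qb (r : ℚ) = σ (algebraMap ℚ Qb (r : ℚ))
      rw [σ.commutes]
    | add F F' _ _ ih ih' =>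
      show F _ + F' _ = σ (F z + F' z)
      rw [map_add, ih, ih']
    | mul F F' _ _ ih ih' =>
      show F _ * F' _ = σ (F z * F' z)
      rw [map_mul, ih, ih']
  · -- fg
    obtain ⟨T, hT⟩ := h.fg
    have hTH : ∀ t ∈ T, t ∈ H := by
      intro t ht
      have : t ∈ Subalgebra.toSubmodule H := by
        rw [← hT]
        exact Submodule.subset_span ht
      exact this
    let S₀ : Set ((J → G) → Qb) := ⋃ j : J, (pullEval ℓ G J j) '' (T : Set (G → Qb))
    have hfin : S₀.Finite := Set.finite_iUnion (fun j => (T.finite_toSet).image _)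
    have hint : ∀ x ∈ S₀, IsIntegral (Zl ℓ) x := by
      intro x hx
      obtain ⟨j, t, ht, rfl⟩ := Set.mem_iUnion.1 hx
      exact (IsIntegral.of_mem_of_fg H h.fg t (hTH t ht)).map (pullEval ℓ G J j)
    have heq : Algebra.adjoin (Zl ℓ) S = Algebra.adjoin (Zl ℓ) S₀ := by
      apply le_antisymm
      · apply Algebra.adjoin_le
        rintro _ ⟨f, hf, j, rfl⟩
        have hf' : f ∈ Submodule.span (Zl ℓ) (T : Set (G → Qb)) := by
          rw [hT]
          exact hf
        have h1 : pullEval ℓ G J j f ∈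
            (Submodule.span (Zl ℓ) (T : Set (G → Qb))).map (pullEval ℓ G J j).toLinearMap :=
          ⟨f, hf', rfl⟩
        rw [Submodule.map_span] at h1
        have h2 : Submodule.span (Zl ℓ) ((pullEval ℓ G J j).toLinearMap '' (T : Set (G → Qb)))
            ≤ Subalgebra.toSubmodule (Algebra.adjoin (Zl ℓ) S₀) := by
          apply Submodule.span_le.2
          rintro _ ⟨t, ht, rfl⟩
          exact Algebra.subset_adjoin (Set.mem_iUnion.2 ⟨j, t, ht, rfl⟩)
        exact h2 h1
      · apply Algebra.adjoin_mono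
        intro x hx
        obtain ⟨j, t, ht, rfl⟩ := Set.mem_iUnion.1 hx
        exact ⟨t, hTH t ht, j, rfl⟩
    rw [heq]
    exact fg_adjoin_of_finite hfin hint
  · -- sep
    intro z z' hzz'
    obtain ⟨j, hj⟩ := Function.ne_iff.1 hzz'
    obtain ⟨f, hf, hfj⟩ := h.sep _ _ hj
    exact ⟨pullEval ℓ G J j f, hSmem f hf j, hfj⟩
  · -- comul
    apply comulClosed_adjoin
    rintro _ ⟨f, hf, j, rfl⟩
    obtain ⟨ι, hι, a, b, ha, hb, hab⟩ := h.comul f hf
    exact ⟨ι, hι, fun i => pullEval ℓ G J j (a i), fun i => pullEval ℓ G J j (b i),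
      fun i => hSmem _ (ha i) j, fun i => hSmem _ (hb i) j, fun x y => hab (x j) (y j)⟩

end Fermat.Agent.S19.A
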