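import Fermat.Agent.S19.A.Closure.Quot
import Fermat.Agent.S19.A.Closure.Pi
import Fermat.Agent.S19.A.Closure.Inj
import Fermat.Agent.S19.A.ToOrder

/-!
# S19 / A3 (closure) : closure properties of `HasFlatModel`
-/

set_option autoImplicit false

namespace Fermat.Agent.S19.A

variable {ℓ : ℕ} [Fact ℓ.Prime] {G : Type} [AddCommGroup G] {act : GQ → G → G}

/-- `FlatOrder ⇒ HasFlatModel` without side conditions. -/
theorem FlatOrder.hasFlatModel' {H : Subalgebra (Zl ℓ) (G → Qb)} (h : FlatOrder ℓ act H) :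
    HasFlatModel ℓ G act :=
  haveI := h.finite
  h.hasFlatModel h.isGalAction

omit [Fact ℓ.Prime] in
theorem HasFlatModel.finite (h : HasFlatModel ℓ G act) : Finite G := by
  obtain ⟨H, hH⟩ := h.exists_flatOrder
  exact hH.finite

omit [Fact ℓ.Prime] in
theorem HasFlatModel.isGalAction (h : HasFlatModel ℓ G act) : IsGalAction act := by
  obtain ⟨H, hH⟩ := h.exists_flatOrder
  exact hH.isGalAction

/-- equivariant quotients. -/
theorem HasFlatModel.of_surjective (h : HasFlatModel ℓ G act) {W : Type} [AddCommGroup W]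
    {actW : GQ → W → W} (q : G →+ W) (hq : Function.Surjective q)
    (hequiv : ∀ σ x, q (act σ x) = actW σ (q x)) : HasFlatModel ℓ W actW := by
  obtain ⟨H, hH⟩ := h.exists_flatOrder
  exact (hH.of_surjective q hq hequiv).hasFlatModel'

/-- equivariant subobjects. -/
theorem HasFlatModel.of_injective (h : HasFlatModel ℓ G act) {P : Type} [AddCommGroup P]
    {actP : GQ → P → P} (j : P →+ G) (hj : Function.Injective j)
    (hequiv : ∀ σ x, j (actP σ x) = act σ (j x)) : HasFlatModel ℓ P actP := by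
  obtain ⟨H, hH⟩ := h.exists_flatOrder
  obtain ⟨H', hH'⟩ := hH.of_injective j hj hequiv
  exact hH'.hasFlatModel'

/-- stable subgroups. -/
theorem HasFlatModel.subgroup (h : HasFlatModel ℓ G act) (P : AddSubgroup G)
    (hP : ∀ σ, ∀ x ∈ P, act σ x ∈ P) :
    HasFlatModel ℓ P (fun σ x => ⟨act σ x, hP σ x x.2⟩) :=
  h.of_injective P.subtype Subtype.val_injective (fun _ _ => rfl)

/-- finite powers. -/
theorem HasFlatModel.pi (h : HasFlatModel ℓ G act) (J : Type) [Finite J] :
    HasFlatModel ℓ (J → G) (fun σ f j => act σ (f j)) := by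
  obtain ⟨H, hH⟩ := h.exists_flatOrder
  obtain ⟨H', hH'⟩ := hH.pi J
  exact hH'.hasFlatModel'

end Fermat.Agent.S19.A
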