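import Fermat.Agent.S19.A.Defs

/-!
# S19 / A3 (closure) : comultiplication closure can be checked on algebra generators
(TASK S19/A3-Adjoin; Mathlib + `Defs` only)
-/

set_option autoImplicit false

namespace Fermat.Agent.S19.A

/-- `Algebra.adjoin_induction`.  Constants `r` : `ι = Unit`, `a = algebraMap r`, `b = 1`.
Sums : `ι ⊕ ι'` (`Fintype.sum_sum_type`).  Products : `ι × ι'`, `a (i,i') = a i * a' i'`
(`Fintype.sum_prod_type`, `Finset.sum_mul_sum`). -/
theorem comulClosed_adjoin {R : Type} [CommSemiring R] [Algebra R Qb] {G : Type} [Add G]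
    (S : Set (G → Qb))
    (hS : ∀ f ∈ S, ∃ (ι : Type) (_ : Fintype ι) (a b : ι → G → Qb),
      (∀ i, a i ∈ Algebra.adjoin R S) ∧ (∀ i, b i ∈ Algebra.adjoin R S) ∧
        ∀ x y, f (x + y) = ∑ i, a i x * b i y) :
    ComulClosed (Algebra.adjoin R S : Set (G → Qb)) := by
  intro f hf
  have hf' : f ∈ Algebra.adjoin R S := hf
  clear hf
  induction hf' using Algebra.adjoin_induction with
  | mem f hfS => exact hS f hfS
  | algebraMap r =>
    refine ⟨Unit, inferInstance, fun _ => algebraMap R (G → Qb) r, fun _ => 1,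
      fun _ => Subalgebra.algebraMap_mem _ r, fun _ => Subalgebra.one_mem _, fun x y => ?_⟩
    simp
  | add f g hf hg ihf ihg =>
    obtain ⟨ι, _, a, b, ha, hb, hab⟩ := ihf
    obtain ⟨ι', _, a', b', ha', hb', hab'⟩ := ihg
    refine ⟨ι ⊕ ι', inferInstance, Sum.elim a a', Sum.elim b b', ?_, ?_, fun x y => ?_⟩
    · rintro (i | i)
      · exact ha i
      · exact ha' i
    · rintro (i | i)
      · exact hb i
      · exact hb' i
    · rw [Fintype.sum_sum_type, Pi.add_apply, hab, hab']
      rfl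
  | mul f g hf hg ihf ihg =>
    obtain ⟨ι, _, a, b, ha, hb, hab⟩ := ihf
    obtain ⟨ι', _, a', b', ha', hb', hab'⟩ := ihg
    refine ⟨ι × ι', inferInstance, fun p => a p.1 * a' p.2, fun p => b p.1 * b' p.2,
      fun p => Subalgebra.mul_mem _ (ha p.1) (ha' p.2),
      fun p => Subalgebra.mul_mem _ (hb p.1) (hb' p.2), fun x y => ?_⟩
    rw [Fintype.sum_prod_type, Pi.mul_apply, hab, hab', Finset.sum_mul_sum]
    refine Finset.sum_congr rfl fun i _ => Finset.sum_congr rfl fun j _ => ?_
    simp only [Pi.mul_apply]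
    ring

end Fermat.Agent.S19.A
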