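import Fermat.Agent.S19.A.OfOrder
import Fermat.Agent.S19.A.Closure.Basic

/-!
# S19 / A3 (closure) : every equivariant function lies in `H` up to a denominator
(TASK S19/A3-Denom)
-/

set_option autoImplicit false

namespace Fermat.Agent.S19.A

variable {ℓ : ℕ} [Fact ℓ.Prime] {G : Type} [AddCommGroup G] {act : GQ → G → G}
  {H : Subalgebra (Zl ℓ) (G → Qb)}

/-- `haveI := h.finite`, `hact := h.isGalAction`; `h.exists_basis hact` gives a `ℤ_(ℓ)`-basis `b` of
`H` which is a `Qb`-basis of all functions.  Write `g = ∑ c i • b i` (`g ∈ span = ⊤`,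
`Submodule.mem_span_range_iff_exists_fun`); `coeff_fixed_of_equivariant` (with
`s σ = (σ : Qb →+* Qb)`, `a = act`, `hact.surjective`) shows that the `c i` are Galois invariant;
`exists_fraction_of_fixed ℓ` gives `d i ≠ 0`, `r i` with `d i * c i = r i`.  Take `d = ∏ i, d i`:
`d • g = ∑ i, ((∏ j ∈ univ.erase i, d j) * r i) • b i ∈ H`. -/
theorem FlatOrder.exists_smul_mem (h : FlatOrder ℓ act H) (g : G → Qb)
    (hg : ∀ (σ : GQ) (x : G), g (act σ x) = σ (g x)) :
    ∃ d : Zl ℓ, d ≠ 0 ∧ d • g ∈ H := by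
  classical
  have := h.finite
  have hact := h.isGalAction
  obtain ⟨ι, _, b, hli, hspan⟩ := h.exists_basis hact
  have hgs : g ∈ Submodule.span Qb (Set.range fun i => (b i : G → Qb)) := by
    rw [hspan]; trivial
  obtain ⟨c, hc⟩ := (Submodule.mem_span_range_iff_exists_fun Qb).mp hgs
  have hfix : ∀ (σ : GQ) (i : ι), σ (c i) = c i :=
    coeff_fixed_of_equivariant (fun σ : GQ => (σ : Qb →+* Qb)) act hact.surjective
      (fun i => (b i : G → Qb)) (fun i σ x => h.equiv _ (b i).2 σ x) hli g hg c hc.symm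
  choose d r hd hdr using fun i => exists_fraction_of_fixed ℓ (fun σ => hfix σ i)
  refine ⟨∏ i, d i, ?_, ?_⟩
  · rw [Finset.prod_ne_zero_iff]
    intro i _ h0
    exact hd i (by rw [h0, map_zero])
  · have h1 : (∏ i, d i) • g
        = ∑ i, ((∏ j ∈ Finset.univ.erase i, d j) * r i) • (b i : G → Qb) := by
      rw [← hc, Finset.smul_sum]
      refine Finset.sum_congr rfl fun i _ => ?_
      rw [← algebraMap_smul Qb (∏ i, d i), ← algebraMap_smul Qb (_ * r i), smul_smul,
        ← Finset.mul_prod_erase Finset.univ d (Finset.mem_univ i), map_mul, map_mul, ← hdr i]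
      congr 1
      ring
    rw [h1]
    exact Subalgebra.sum_mem _ fun i _ => H.smul_mem (b i).2 _

end Fermat.Agent.S19.A
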