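import Mathlib

/-!
# S19 / A3 (closure) : rewriting a sum of products in a basis of the second factor
(TASK S19/A3-Half; Mathlib only)
-/

set_option autoImplicit false

namespace Fermat.Agent.S19.A

/-- `a' k := ∑ i, (β.repr ⟨b i, hb i⟩ k) • a i`.  Formula: `b i = ∑ k, repr k • β k`
(`β.sum_repr`, then coerce to functions and evaluate at `y`), exchange the sums.
Last clause: `∑ k, (a' k x - a' k x') • β k = 0` as a function of `y`, so all coefficients vanish
(`Fintype.linearIndependent_iff.1 hβ`). -/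
theorem exists_rewrite_basis {R Ω : Type} [CommRing R] [Field Ω] [Algebra R Ω] {X Y κ : Type}
    [Fintype κ] (N : Submodule R (X → Ω)) (M : Submodule R (Y → Ω)) (β : Module.Basis κ R M)
    (hβ : LinearIndependent Ω (fun k => (β k : Y → Ω)))
    (F : X → Y → Ω) {ι : Type} [Fintype ι] (a : ι → X → Ω) (b : ι → Y → Ω)
    (ha : ∀ i, a i ∈ N) (hb : ∀ i, b i ∈ M) (hF : ∀ x y, F x y = ∑ i, a i x * b i y) :
    ∃ a' : κ → X → Ω, (∀ k, a' k ∈ N) ∧ (∀ x y, F x y = ∑ k, a' k x * (β k : Y → Ω) y) ∧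
      ∀ x x', (∀ y, F x y = F x' y) → ∀ k, a' k x = a' k x' := by
  classical
  have hb' : ∀ i y, b i y = ∑ k, (β.repr ⟨b i, hb i⟩ k) • (β k : Y → Ω) y := by
    intro i y
    have h1 := β.sum_repr ⟨b i, hb i⟩
    have h2 := congrArg (fun m : M => (m : Y → Ω) y) h1
    simp only [AddSubmonoidClass.coe_finset_sum, Submodule.coe_smul, Finset.sum_apply,
      Pi.smul_apply] at h2
    exact h2.symm
  have hform : ∀ x y, F x y =
      ∑ k, (∑ i, (β.repr ⟨b i, hb i⟩ k) • a i) x * (β k : Y → Ω) y := by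
    intro x y
    rw [hF]
    simp only [Finset.sum_apply, Pi.smul_apply, Finset.sum_mul]
    rw [Finset.sum_comm]
    refine Finset.sum_congr rfl fun i _ => ?_
    rw [hb' i y, Finset.mul_sum]
    refine Finset.sum_congr rfl fun k _ => ?_
    rw [Algebra.smul_def, Algebra.smul_def]
    ring
  refine ⟨fun k => ∑ i, (β.repr ⟨b i, hb i⟩ k) • a i,
    fun k => Submodule.sum_mem _ fun i _ => Submodule.smul_mem _ _ (ha i), hform, ?_⟩
  intro x x' hxx' k
  have h0 : ∑ k, ((∑ i, (β.repr ⟨b i, hb i⟩ k) • a i) x -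
      (∑ i, (β.repr ⟨b i, hb i⟩ k) • a i) x') • (β k : Y → Ω) = 0 := by
    funext y
    have h1 := hxx' y
    rw [hform x y, hform x' y] at h1
    simp only [Finset.sum_apply, Pi.smul_apply, smul_eq_mul, Pi.zero_apply, sub_mul,
      Finset.sum_sub_distrib] at h1 ⊢
    rw [h1, sub_self]
  exact sub_eq_zero.1 (Fintype.linearIndependent_iff.1 hβ _ h0 k)

end Fermat.Agent.S19.A
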