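import Fermat.Agent.S19.A.Zl

/-!
# S19 / A3 (closure) : auxiliary lemmas for quotients
(TASK S19/A3-QuotAux)
-/

set_option autoImplicit false

namespace Fermat.Agent.S19.A

/-- pull back of functions, as an algebra homomorphism. -/
noncomputable def pullHom (R : Type) [CommSemiring R] [Algebra R Qb] {X Y : Type} (j : X → Y) :
    (Y → Qb) →ₐ[R] (X → Qb) :=
  AlgHom.pi (fun x => Pi.evalAlgHom R (fun _ : Y => Qb) (j x))

@[simp] theorem pullHom_apply (R : Type) [CommSemiring R] [Algebra R Qb] {X Y : Type} (j : X → Y)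
    (f : Y → Qb) (x : X) : pullHom R j f x = f (j x) := rfl

/-- every field is transported with `hq` (choose preimages). -/
theorem IsGalAction.of_surjective {G W : Type} [AddCommGroup G] [AddCommGroup W]
    {act : GQ → G → G} {actW : GQ → W → W} (hact : IsGalAction act) (q : G →+ W)
    (hq : Function.Surjective q) (hequiv : ∀ σ x, q (act σ x) = actW σ (q x)) :
    IsGalAction actW := by
  refine ⟨fun w => ?_, fun σ τ w => ?_, fun σ w w' => ?_, fun w => ?_⟩
  · obtain ⟨x, rfl⟩ := hq w
    rw [← hequiv, hact.one]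
  · obtain ⟨x, rfl⟩ := hq w
    rw [← hequiv, ← hequiv, ← hequiv, hact.mul]
  · obtain ⟨x, rfl⟩ := hq w
    obtain ⟨x', rfl⟩ := hq w'
    rw [← map_add, ← hequiv, ← hequiv, ← hequiv, hact.add, map_add]
  · obtain ⟨x, rfl⟩ := hq w
    obtain ⟨L, hL, h⟩ := hact.smooth x
    exact ⟨L, hL, fun σ hσ => by rw [← hequiv, h σ hσ]⟩

/-- `ℤ_(ℓ)` is noetherian (PID instance of `A/Zl.lean`), so `H` is a noetherian module
(`isNoetherian_of_fg_of_noetherian`); `pullHom q` is injective (`hq`); use
`Submodule.fg_of_fg_map_injective` and `isNoetherian_submodule.1` for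
`(comap).map ≤ toSubmodule H`. -/
theorem fg_comap_pullHom {ℓ : ℕ} [Fact ℓ.Prime] {G W : Type} (q : G → W)
    (hq : Function.Surjective q) (H : Subalgebra (Zl ℓ) (G → Qb))
    (hfg : (Subalgebra.toSubmodule H).FG) :
    (Subalgebra.toSubmodule (H.comap (pullHom (Zl ℓ) q))).FG := by
  have hN : IsNoetherian (Zl ℓ) (Subalgebra.toSubmodule H) := isNoetherian_of_fg_of_noetherian _ hfg
  have hinj : Function.Injective (pullHom (Zl ℓ) q).toLinearMap := by
    intro f g hfg
    funext w
    obtain ⟨x, rfl⟩ := hq w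
    exact congrFun hfg x
  refine Submodule.fg_of_fg_map_injective (pullHom (Zl ℓ) q).toLinearMap hinj ?_
  refine isNoetherian_submodule.1 hN _ ?_
  rintro _ ⟨f, hf, rfl⟩
  exact hf

/-- a function on `G` which is invariant under `ker q` factors through the surjection `q`. -/
theorem exists_factor {G W : Type} [AddCommGroup G] [AddCommGroup W] (q : G →+ W)
    (hq : Function.Surjective q) (f : G → Qb) (hf : ∀ x x', q x = q x' → f x = f x') :
    ∃ g : W → Qb, ∀ x, g (q x) = f x :=
  ⟨fun w => f (Function.surjInv hq w), fun x => hf _ _ (Function.surjInv_eq hq (q x))⟩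

end Fermat.Agent.S19.A
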