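import Fermat.Agent.S19.A.Closure.Denom
import Fermat.Agent.S19.A.Closure.Half
import Fermat.Agent.S19.A.Closure.QuotAux
import Fermat.Agent.S19.A.Smooth

/-!
# S19 / A3 (closure) : equivariant quotients of a `FlatOrder`
-/

set_option autoImplicit false

namespace Fermat.Agent.S19.A

variable {ℓ : ℕ} [Fact ℓ.Prime] {G : Type} [AddCommGroup G] {act : GQ → G → G}
  {H : Subalgebra (Zl ℓ) (G → Qb)}

theorem FlatOrder.of_surjective (h : FlatOrder ℓ act H) {W : Type} [AddCommGroup W]
    {actW : GQ → W → W} (q : G →+ W) (hq : Function.Surjective q)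
    (hequiv : ∀ σ x, q (act σ x) = actW σ (q x)) :
    FlatOrder ℓ actW (H.comap (pullHom (Zl ℓ) q)) := by
  classical
  have := h.finite
  have hact := h.isGalAction
  have hactW : IsGalAction actW := hact.of_surjective q hq hequiv
  have : Finite W := Finite.of_surjective q hq
  set HW : Subalgebra (Zl ℓ) (W → Qb) := H.comap (pullHom (Zl ℓ) q) with hHW
  have hmem : ∀ f : W → Qb, f ∈ HW ↔ (fun x => f (q x)) ∈ H := fun f => Iff.rfl
  have hEquiv : ∀ f ∈ HW, ∀ (σ : GQ) (w : W), f (actW σ w) = σ (f w) := by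
    intro f hf σ w
    obtain ⟨x, rfl⟩ := hq w
    rw [← hequiv]
    exact h.equiv _ hf σ x
  have hFg : (Subalgebra.toSubmodule HW).FG := fg_comap_pullHom q hq H h.fg
  have hSep : ∀ w w' : W, w ≠ w' → ∃ f ∈ HW, f w ≠ f w' := by
    intro w w' hne
    obtain ⟨g, hg, hgne⟩ := exists_equivariant_separating hactW hne
    obtain ⟨d, hd, hdm⟩ := h.exists_smul_mem (fun x => g (q x)) (fun σ x => by rw [hequiv, hg])
    refine ⟨d • g, hdm, ?_⟩
    intro heq
    apply hgne
    have h1 : algebraMap (Zl ℓ) Qb d * g w = algebraMap (Zl ℓ) Qb d * g w' := by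
      simpa [Algebra.smul_def] using heq
    have h2 : algebraMap (Zl ℓ) Qb d ≠ 0 := by
      intro h0
      exact hd (algebraMap_Zl_Qb_injective ℓ (by rw [h0, map_zero]))
    exact mul_left_cancel₀ h2 h1
  refine ⟨hEquiv, hFg, hSep, ?_⟩
  -- comultiplication
  intro f hf
  obtain ⟨ι, _, a, b, ha, hb, hab⟩ := h.comul _ ((hmem f).1 hf)
  obtain ⟨κ, _, β, hβli, -⟩ := h.exists_basis hact
  obtain ⟨a', ha', hF, hinv⟩ := exists_rewrite_basis (Subalgebra.toSubmodule H)
    (Subalgebra.toSubmodule H) (β.map (Subalgebra.toSubmoduleEquiv H).symm) hβli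
    (fun x y => f (q (x + y))) a b ha hb hab
  have hfac : ∀ k, ∃ g : W → Qb, ∀ x, g (q x) = a' k x := by
    intro k
    refine exists_factor q hq (a' k) (fun x x' hxx => hinv x x' (fun y => ?_) k)
    show f (q (x + y)) = f (q (x' + y))
    rw [map_add, map_add, hxx]
  choose α hα using hfac
  have hαm : ∀ k, α k ∈ HW := by
    intro k
    rw [hmem]
    have : (fun x => α k (q x)) = a' k := funext (hα k)
    rw [this]
    exact ha' k
  obtain ⟨κ', _, u, huli, -⟩ := exists_basis_of_order (algebraMap_Zl_Qb_injective ℓ)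
    (fun σ : GQ => (σ : Qb →+* Qb)) actW hactW.surjective
    (fun _ hc => exists_fraction_of_fixed ℓ hc) HW hFg (fun f hf σ x => hEquiv f hf σ x) hSep
  obtain ⟨γ, hγ, hF2, hinv2⟩ := exists_rewrite_basis (Subalgebra.toSubmodule H)
    (Subalgebra.toSubmodule HW) (u.map (Subalgebra.toSubmoduleEquiv HW).symm) huli
    (fun y w => f (w + q y)) (fun k => (β k : G → Qb)) α (fun k => (β k).2) hαm (by
      intro y w
      obtain ⟨x, rfl⟩ := hq w
      have := hF x y
      show f (q x + q y) = _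
      rw [← map_add, this]
      refine Finset.sum_congr rfl (fun k _ => ?_)
      rw [hα, mul_comm]
      rfl)
  have hfac2 : ∀ m, ∃ g : W → Qb, ∀ y, g (q y) = γ m y := by
    intro m
    refine exists_factor q hq (γ m) (fun y y' hyy => hinv2 y y' (fun w => ?_) m)
    show f (w + q y) = f (w + q y')
    rw [hyy]
  choose δ hδ using hfac2
  have hδm : ∀ m, δ m ∈ HW := by
    intro m
    rw [hmem]
    have : (fun x => δ m (q x)) = γ m := funext (hδ m)
    rw [this]
    exact hγ m
  refine ⟨κ', inferInstance, fun m => (u m : W → Qb), δ, fun m => (u m).2, hδm, ?_⟩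
  intro w w'
  obtain ⟨y, rfl⟩ := hq w'
  have := hF2 y w
  rw [this]
  refine Finset.sum_congr rfl (fun m _ => ?_)
  rw [hδ, mul_comm]
  rfl

end Fermat.Agent.S19.A
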